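import Mathlib
import Fermat.Agent.LT.H556.A0

/-!
# Row LT, tower T2, leaf T2.03a (`FDBound`), sub-leaf T2.03a.1 `ContrC` (helper729): core

OFF-MAIN.  Mathlib + `LT/H556/A0.lean` only.  Nothing is assumed.

`contr729` : for an ideal `𝔫 ≠ 0`, a compact `Ω ⊆ GL₂(𝔸_K)` and a compact `C ⊆ 𝔸_K` there is an
integer `m > 0` such that `ω⁻¹ n ω ∈ U(𝔫)` for all `ω ∈ Ω`, `u ∈ C` and every unipotent
`n = [[1, x], [0, 1]]` whose parameter `x` has infinite part `0` and the finite part of `m u`.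

Proof.  (1) `exists_denom729`: a compact set of adeles has bounded denominators (the sets
`{x : m x_v ∈ 𝒪_v for all v}` are open, increasing for divisibility, and cover `𝔸_K`).
(2) The entries of `ω` and `ω⁻¹` are continuous, so they have bounded denominators on `Ω`.
(3) `mul_mem_idealClosure729`: `c 𝒪_v ⊆` closure of `𝔫` for `c ∈ 𝔫` (`𝒪_K` is dense in `𝒪_v`).
(4) `m = m₁ m₂² m₃`, `m₃ = N(𝔫) ∈ 𝔫`:
`(ω⁻¹ n ω - 1)_v = ω_v⁻¹ [[0, m u_v], [0, 0]] ω_v`, with entries
`m₃ (m₂ (ω_v⁻¹)_{i0}) (m₁ u_v) (m₂ (ω_v)_{1j}) ∈ m₃ 𝒪_v`.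
-/

set_option autoImplicit false

open IsDedekindDomain NumberField
open Fermat.Agent.LT.H556.A0

noncomputable section

namespace Fermat.Agent.LT.T2.H729

set_option linter.unusedSectionVars false

variable {K : Type} [Field K] [NumberField K]

/-! ## Components -/

/-- The component at the infinite place `w`, as a ring homomorphism. -/
def pInfC729 (w : InfinitePlace K) : Adl K →+* w.Completion :=
  (Pi.evalRingHom (fun w : InfinitePlace K => w.Completion) w).comp
    (RingHom.fst (InfiniteAdeleRing K) (FiniteAdeleRing (𝓞 K) K))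

/-- The component at the finite place `v`, as a ring homomorphism. -/
def pFinC729 (v : HeightOneSpectrum (𝓞 K)) : Adl K →+* v.adicCompletion K :=
  (RestrictedProduct.evalRingHom (fun v : HeightOneSpectrum (𝓞 K) => v.adicCompletion K) v).comp
    (RingHom.snd (InfiniteAdeleRing K) (FiniteAdeleRing (𝓞 K) K))

theorem pInfC729_apply (w : InfinitePlace K) (x : Adl K) : pInfC729 w x = x.1 w := rfl

theorem pFinC729_apply (v : HeightOneSpectrum (𝓞 K)) (x : Adl K) : pFinC729 v x = x.2 v := rfl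

theorem natCast_mul_snd729 (v : HeightOneSpectrum (𝓞 K)) (m : ℕ) (x : Adl K) :
    ((m : Adl K) * x).2 v = (m : v.adicCompletion K) * x.2 v := by
  rw [← pFinC729_apply, map_mul, map_natCast, pFinC729_apply]

theorem natCast_mem_integers729 (v : HeightOneSpectrum (𝓞 K)) (m : ℕ) :
    (m : v.adicCompletion K) ∈ v.adicCompletionIntegers K :=
  natCast_mem _ m

/-! ## Bounded denominators -/

/-- The adeles with denominator dividing `m`. -/
def denomSet729 (m : ℕ) : Set (Adl K) :=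
  {x | ∀ v : HeightOneSpectrum (𝓞 K),
    (m : v.adicCompletion K) * x.2 v ∈ v.adicCompletionIntegers K}

theorem isOpen_denomSet729 (m : ℕ) : IsOpen (denomSet729 (K := K) m) := by
  have hopen : IsOpen {f : FiniteAdeleRing (𝓞 K) K |
      ∀ v : HeightOneSpectrum (𝓞 K), f v ∈ v.adicCompletionIntegers K} :=
    RestrictedProduct.isOpen_forall_mem (fun v => Valued.isOpen_valuationSubring _)
  have hc : Continuous fun x : Adl K => ((m : Adl K) * x).2 :=
    continuous_snd.comp (continuous_const.mul continuous_id)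
  have he : denomSet729 (K := K) m = (fun x : Adl K => ((m : Adl K) * x).2) ⁻¹'
      {f : FiniteAdeleRing (𝓞 K) K |
        ∀ v : HeightOneSpectrum (𝓞 K), f v ∈ v.adicCompletionIntegers K} := by
    ext x
    simp only [denomSet729, Set.mem_preimage, Set.mem_ofPred_eq]
    refine forall_congr' (fun v => ?_)
    rw [natCast_mul_snd729]
  rw [he]
  exact hopen.preimage hc

theorem denomSet_mono729 {m m' : ℕ} (h : m ∣ m') :
    denomSet729 (K := K) m ⊆ denomSet729 m' := by
  obtain ⟨k, rfl⟩ := h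
  intro x hx v
  have h1 := hx v
  have h2 : ((m * k : ℕ) : v.adicCompletion K) * x.2 v
      = (k : v.adicCompletion K) * ((m : v.adicCompletion K) * x.2 v) := by
    push_cast
    ring
  rw [h2]
  exact mul_mem (natCast_mem_integers729 v k) h1

/-- Every element of `K_v` has a positive integer multiple in `𝒪_v`. -/
theorem exists_natCast_mul_mem729 (v : HeightOneSpectrum (𝓞 K)) (a : v.adicCompletion K) :
    ∃ k : ℕ, 0 < k ∧ (k : v.adicCompletion K) * a ∈ v.adicCompletionIntegers K := by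
  obtain ⟨b, hb, hab⟩ :=
    HeightOneSpectrum.adicCompletion.mul_nonZeroDivisor_mem_adicCompletionIntegers (K := K) v a
  have hb0 : b ≠ 0 := nonZeroDivisors.ne_zero hb
  set I : Ideal (𝓞 K) := Ideal.span {b} with hI
  have hI0 : I ≠ ⊥ := by
    rw [hI, Ne, Ideal.span_singleton_eq_bot]
    exact hb0
  have hk0 : Ideal.absNorm I ≠ 0 := by
    rw [Ne, Ideal.absNorm_eq_zero_iff]
    exact hI0
  have hmem : ((Ideal.absNorm I : ℕ) : 𝓞 K) ∈ I := Ideal.absNorm_mem I
  rw [hI, Ideal.mem_span_singleton'] at hmem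
  obtain ⟨c, hc⟩ := hmem
  refine ⟨Ideal.absNorm I, Nat.pos_of_ne_zero hk0, ?_⟩
  have h1 : ((Ideal.absNorm I : ℕ) : v.adicCompletion K)
      = algebraMap (𝓞 K) (v.adicCompletion K) c * algebraMap (𝓞 K) (v.adicCompletion K) b := by
    rw [← map_mul, hc, map_natCast]
  rw [h1, mul_assoc]
  refine mul_mem (HeightOneSpectrum.coe_mem_adicCompletionIntegers (K := K) v c) ?_
  rw [mul_comm]
  exact hab

/-- The sets `denomSet729 m`, `m > 0`, cover the adeles. -/
theorem exists_mem_denomSet729 (x : Adl K) : ∃ m : ℕ, 0 < m ∧ x ∈ denomSet729 m := by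
  classical
  have hfin : {v : HeightOneSpectrum (𝓞 K) | x.2 v ∉ v.adicCompletionIntegers K}.Finite := by
    have := x.2.2
    rw [Filter.eventually_cofinite] at this
    exact this
  choose k hk0 hk using fun v : HeightOneSpectrum (𝓞 K) => exists_natCast_mul_mem729 v (x.2 v)
  refine ⟨∏ v ∈ hfin.toFinset, k v, Finset.prod_pos (fun v _ => hk0 v), fun v => ?_⟩
  by_cases hv : v ∈ hfin.toFinset
  · have hdvd : k v ∣ ∏ v ∈ hfin.toFinset, k v := Finset.dvd_prod_of_mem k hv
    obtain ⟨c, hc⟩ := hdvd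
    rw [hc]
    have h2 : ((k v * c : ℕ) : v.adicCompletion K) * x.2 v
        = (c : v.adicCompletion K) * ((k v : v.adicCompletion K) * x.2 v) := by
      push_cast
      ring
    rw [h2]
    exact mul_mem (natCast_mem_integers729 v c) (hk v)
  · have hx : x.2 v ∈ v.adicCompletionIntegers K := by
      by_contra h
      exact hv (hfin.mem_toFinset.mpr h)
    exact mul_mem (natCast_mem_integers729 v _) hx

/-- **Bounded denominators**: a compact set of adeles is contained in some `denomSet729 m`,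
`m > 0`. -/
theorem exists_denom729 (C : Set (Adl K)) (hC : IsCompact C) :
    ∃ m : ℕ, 0 < m ∧ C ⊆ denomSet729 m := by
  classical
  have hcover : C ⊆ ⋃ i : ℕ, denomSet729 (K := K) (i + 1) := by
    intro x _
    obtain ⟨m, hm, hx⟩ := exists_mem_denomSet729 x
    rw [Set.mem_iUnion]
    refine ⟨m - 1, ?_⟩
    have : m - 1 + 1 = m := by omega
    rw [this]
    exact hx
  obtain ⟨t, ht⟩ := hC.elim_finite_subcover (fun i : ℕ => denomSet729 (K := K) (i + 1))
    (fun i => isOpen_denomSet729 (i + 1)) hcover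
  refine ⟨∏ i ∈ t, (i + 1), Finset.prod_pos (fun i _ => Nat.succ_pos i), fun x hx => ?_⟩
  have := ht hx
  rw [Set.mem_iUnion₂] at this
  obtain ⟨i, hi, hxi⟩ := this
  exact denomSet_mono729 (Finset.dvd_prod_of_mem (fun i => i + 1) hi) hxi

/-! ## The closure of an ideal -/

/-- `𝒪_K` is dense in `𝒪_v`. -/
theorem mem_closure_range_integers729 (v : HeightOneSpectrum (𝓞 K)) (y : v.adicCompletion K)
    (hy : y ∈ v.adicCompletionIntegers K) :
    y ∈ closure (Set.range fun a : 𝓞 K =>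
      algebraMap K (v.adicCompletion K) (algebraMap (𝓞 K) K a)) := by
  rw [mem_closure_iff_nhds]
  intro t ht
  rw [Valued.mem_nhds] at ht
  obtain ⟨γ, hγ⟩ := ht
  set γ' : WithZero (Multiplicative ℤ) := MonoidWithZeroHom.ValueGroup₀.embedding γ.1 with hγ'
  have hγ'0 : γ' ≠ 0 :=
    (map_ne_zero_iff _ MonoidWithZeroHom.ValueGroup₀.embedding_injective).mpr γ.ne_zero
  have hsub : ∀ z : v.adicCompletion K, Valued.v (z - y) < γ' → z ∈ t := fun z hz =>
    hγ ((Valuation.restrict_lt_iff_lt_embedding _).mpr hz)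
  -- step 1: an element of `K` close to `y`
  have hopen : {z : v.adicCompletion K | Valued.v (z - y) < min γ' 1} ∈ nhds y := by
    rw [Valued.mem_nhds]
    by_cases hle : γ.1 ≤ 1
    · refine ⟨γ, fun z hz => ?_⟩
      have h1 : Valued.v (z - y) < γ' := (Valuation.restrict_lt_iff_lt_embedding _).mp hz
      have h2 : γ' ≤ 1 := by
        have := MonoidWithZeroHom.ValueGroup₀.embedding_strictMono.monotone hle
        rwa [map_one] at this
      show Valued.v (z - y) < min γ' 1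
      rw [min_eq_left h2]
      exact h1
    · refine ⟨1, fun z hz => ?_⟩
      have h1 : Valued.v (z - y) < 1 := by
        have := (Valuation.restrict_lt_iff_lt_embedding _).mp hz
        rwa [Units.val_one, map_one] at this
      have h2 : 1 ≤ γ' := by
        have := MonoidWithZeroHom.ValueGroup₀.embedding_strictMono.monotone (not_le.mp hle).le
        rwa [map_one] at this
      show Valued.v (z - y) < min γ' 1
      rw [min_eq_right h2]
      exact h1
  have hdense : DenseRange (algebraMap K (v.adicCompletion K)) :=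
    HeightOneSpectrum.denseRange_algebraMap (R := 𝓞 K) K v
  have hval : ∀ k : K, Valued.v (algebraMap K (v.adicCompletion K) k) = v.valuation K k :=
    fun k => HeightOneSpectrum.valuedAdicCompletion_eq_valuation' v k
  obtain ⟨z, ⟨x, rfl⟩, hz⟩ := hdense.inter_nhds_nonempty hopen
  have hz1 : Valued.v (algebraMap K (v.adicCompletion K) x - y) < γ' :=
    lt_of_lt_of_le hz (min_le_left _ _)
  have hz2 : Valued.v (algebraMap K (v.adicCompletion K) x - y) < 1 :=
    lt_of_lt_of_le hz (min_le_right _ _)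
  have hy1 : Valued.v y ≤ 1 := by
    rwa [HeightOneSpectrum.mem_adicCompletionIntegers] at hy
  have hx1 : Valued.v (algebraMap K (v.adicCompletion K) x) ≤ 1 := by
    have h3 : algebraMap K (v.adicCompletion K) x
        = (algebraMap K (v.adicCompletion K) x - y) + y := by ring
    rw [h3]
    exact (Valued.v.map_add _ _).trans (max_le hz2.le hy1)
  have hx2 : v.valuation K x ≤ 1 := by
    rwa [hval] at hx1
  -- step 2: an element of `𝒪_K` close to `x`
  obtain ⟨a, ha⟩ := HeightOneSpectrum.exists_valuation_sub_lt_of_integer (K := K) v hx2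
    (Units.mk0 γ' hγ'0)
  rw [Units.val_mk0] at ha
  refine ⟨algebraMap K (v.adicCompletion K) (algebraMap (𝓞 K) K a), hsub _ ?_, ⟨a, rfl⟩⟩
  have h4 : algebraMap K (v.adicCompletion K) (algebraMap (𝓞 K) K a) - y
      = algebraMap K (v.adicCompletion K) (algebraMap (𝓞 K) K a - x)
        + (algebraMap K (v.adicCompletion K) x - y) := by
    rw [map_sub]
    ring
  rw [h4]
  refine lt_of_le_of_lt (Valued.v.map_add _ _) (max_lt ?_ hz1)
  rw [hval]
  exact ha

/-- `c 𝒪_v` is contained in the closure of `𝔫` for `c ∈ 𝔫`. -/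
theorem mul_mem_idealClosure729 (𝔫 : Ideal (𝓞 K)) (v : HeightOneSpectrum (𝓞 K)) (c : 𝓞 K)
    (hc : c ∈ 𝔫) (y : v.adicCompletion K) (hy : y ∈ v.adicCompletionIntegers K) :
    algebraMap K (v.adicCompletion K) (algebraMap (𝓞 K) K c) * y ∈ idealClosure 𝔫 v := by
  have h1 := mem_closure_range_integers729 v y hy
  have hcont : Continuous fun z : v.adicCompletion K =>
      algebraMap K (v.adicCompletion K) (algebraMap (𝓞 K) K c) * z :=
    continuous_const.mul continuous_id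
  have h2 := map_mem_closure hcont h1 (t := (fun x : 𝓞 K =>
      algebraMap K (v.adicCompletion K) (algebraMap (𝓞 K) K x)) '' (𝔫 : Set (𝓞 K))) ?_
  · exact h2
  · rintro _ ⟨a, rfl⟩
    refine ⟨c * a, 𝔫.mul_mem_right a hc, ?_⟩
    show algebraMap K (v.adicCompletion K) (algebraMap (𝓞 K) K (c * a)) = _
    rw [map_mul, map_mul]

/-- The same for a natural number in `𝔫`. -/
theorem natCast_mul_mem_idealClosure729 (𝔫 : Ideal (𝓞 K)) (v : HeightOneSpectrum (𝓞 K)) (m : ℕ)
    (hm : (m : 𝓞 K) ∈ 𝔫) (y : v.adicCompletion K) (hy : y ∈ v.adicCompletionIntegers K) :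
    (m : v.adicCompletion K) * y ∈ idealClosure 𝔫 v := by
  have := mul_mem_idealClosure729 𝔫 v (m : 𝓞 K) hm y hy
  rwa [map_natCast, map_natCast] at this

/-! ## The contraction -/

/-- The entries of the elements of a compact subset of `GL₂(𝔸_K)` and of their inverses have
bounded denominators. -/
theorem exists_denom_entries729 (Ω : Set (G K)) (hΩ : IsCompact Ω) :
    ∃ m : ℕ, 0 < m ∧ ∀ ω ∈ Ω, ∀ i j : Fin 2,
      (ω : Matrix (Fin 2) (Fin 2) (Adl K)) i j ∈ denomSet729 m ∧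
        ((ω⁻¹ : G K) : Matrix (Fin 2) (Fin 2) (Adl K)) i j ∈ denomSet729 m := by
  have hval : Continuous fun ω : G K => (ω : Matrix (Fin 2) (Fin 2) (Adl K)) :=
    Units.continuous_val
  have hinv : Continuous fun ω : G K => ((ω⁻¹ : G K) : Matrix (Fin 2) (Fin 2) (Adl K)) :=
    Units.continuous_coe_inv
  have hc1 : ∀ i j : Fin 2, Continuous fun ω : G K =>
      (ω : Matrix (Fin 2) (Fin 2) (Adl K)) i j := fun i j => hval.matrix_elem i j
  have hc2 : ∀ i j : Fin 2, Continuous fun ω : G K =>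
      ((ω⁻¹ : G K) : Matrix (Fin 2) (Fin 2) (Adl K)) i j := fun i j => hinv.matrix_elem i j
  have hcpt : IsCompact (⋃ i : Fin 2, ⋃ j : Fin 2,
      ((fun ω : G K => (ω : Matrix (Fin 2) (Fin 2) (Adl K)) i j) '' Ω ∪
        (fun ω : G K => ((ω⁻¹ : G K) : Matrix (Fin 2) (Fin 2) (Adl K)) i j) '' Ω)) :=
    isCompact_iUnion fun i => isCompact_iUnion fun j =>
      (hΩ.image (hc1 i j)).union (hΩ.image (hc2 i j))
  obtain ⟨m, hm, hsub⟩ := exists_denom729 _ hcpt
  refine ⟨m, hm, fun ω hω i j => ⟨hsub ?_, hsub ?_⟩⟩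
  · exact Set.mem_iUnion.mpr ⟨i, Set.mem_iUnion.mpr ⟨j, Or.inl ⟨ω, hω, rfl⟩⟩⟩
  · exact Set.mem_iUnion.mpr ⟨i, Set.mem_iUnion.mpr ⟨j, Or.inr ⟨ω, hω, rfl⟩⟩⟩

/-- The entries of a conjugate of `[[1, x], [0, 1]] - 1`. -/
theorem conj_unip_sub_one729 {R : Type} [CommRing R] (A B : Matrix (Fin 2) (Fin 2) R)
    (hBA : B * A = 1) (x : R) (i j : Fin 2) :
    (B * !![1, x; 0, 1] * A - 1) i j = B i 0 * x * A 1 j := by
  have h1 : B * !![1, x; 0, 1] * A - 1 = B * (!![1, x; 0, 1] - 1) * A := by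
    rw [Matrix.mul_sub, Matrix.sub_mul, Matrix.mul_one, hBA]
  rw [h1]
  have h2 : (!![1, x; 0, 1] - 1 : Matrix (Fin 2) (Fin 2) R) = !![0, x; 0, 0] := by
    ext a b
    fin_cases a <;> fin_cases b <;> simp
  rw [h2]
  simp [Matrix.mul_apply, Fin.sum_univ_two]

/-- **CONTR**, core form. -/
theorem contr729 (𝔫 : Ideal (𝓞 K)) (h𝔫 : 𝔫 ≠ ⊥) (Ω : Set (G K)) (hΩ : IsCompact Ω)
    (C : Set (Adl K)) (hC : IsCompact C) :
    ∃ m : ℕ, 0 < m ∧ ∀ ω ∈ Ω, ∀ u ∈ C, ∀ n : G K,
      (n : Matrix (Fin 2) (Fin 2) (Adl K))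
        = !![1, ((0 : InfiniteAdeleRing K), ((m : Adl K) * u).2); 0, 1] →
      ((n⁻¹ : G K) : Matrix (Fin 2) (Fin 2) (Adl K))
        = !![1, -((0 : InfiniteAdeleRing K), ((m : Adl K) * u).2); 0, 1] →
      InLevelGroup 𝔫 (ω⁻¹ * n * ω) := by
  obtain ⟨m₁, hm₁, hC₁⟩ := exists_denom729 C hC
  obtain ⟨m₂, hm₂, hΩ₂⟩ := exists_denom_entries729 Ω hΩ
  set m₃ : ℕ := Ideal.absNorm 𝔫 with hm₃def
  have hm₃ : 0 < m₃ := Nat.pos_of_ne_zero (by
    rw [hm₃def, Ne, Ideal.absNorm_eq_zero_iff]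
    exact h𝔫)
  have hm₃mem : (m₃ : 𝓞 K) ∈ 𝔫 := Ideal.absNorm_mem 𝔫
  refine ⟨m₃ * (m₂ * m₁ * m₂), Nat.mul_pos hm₃ (Nat.mul_pos (Nat.mul_pos hm₂ hm₁) hm₂),
    fun ω hω u hu n hn hn' => ?_⟩
  set x : Adl K := ((0 : InfiniteAdeleRing K), (((m₃ * (m₂ * m₁ * m₂) : ℕ) : Adl K) * u).2)
    with hx
  have hBA : ((ω⁻¹ : G K) : Matrix (Fin 2) (Fin 2) (Adl K))
      * (ω : Matrix (Fin 2) (Fin 2) (Adl K)) = 1 := by
    rw [← Units.val_mul, inv_mul_cancel, Units.val_one]
  have hg : ((ω⁻¹ * n * ω : G K) : Matrix (Fin 2) (Fin 2) (Adl K))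
      = ((ω⁻¹ : G K) : Matrix (Fin 2) (Fin 2) (Adl K)) * !![1, x; 0, 1]
        * (ω : Matrix (Fin 2) (Fin 2) (Adl K)) := by
    rw [Units.val_mul, Units.val_mul, hn]
    rfl
  have hginv : (((ω⁻¹ * n * ω)⁻¹ : G K) : Matrix (Fin 2) (Fin 2) (Adl K))
      = ((ω⁻¹ : G K) : Matrix (Fin 2) (Fin 2) (Adl K)) * !![1, -x; 0, 1]
        * (ω : Matrix (Fin 2) (Fin 2) (Adl K)) := by
    have : (ω⁻¹ * n * ω)⁻¹ = ω⁻¹ * n⁻¹ * ω := by group
    rw [this, Units.val_mul, Units.val_mul, hn']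
    rfl
  have hentry : ∀ i j : Fin 2,
      ((ω⁻¹ * n * ω : G K) : Matrix (Fin 2) (Fin 2) (Adl K)) i j - (1 : Matrix _ _ _) i j
        = ((ω⁻¹ : G K) : Matrix (Fin 2) (Fin 2) (Adl K)) i 0 * x
          * (ω : Matrix (Fin 2) (Fin 2) (Adl K)) 1 j := by
    intro i j
    rw [hg]
    exact conj_unip_sub_one729 _ _ hBA x i j
  have hentry' : ∀ i j : Fin 2,
      (((ω⁻¹ * n * ω)⁻¹ : G K) : Matrix (Fin 2) (Fin 2) (Adl K)) i j - (1 : Matrix _ _ _) i j
        = ((ω⁻¹ : G K) : Matrix (Fin 2) (Fin 2) (Adl K)) i 0 * (-x)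
          * (ω : Matrix (Fin 2) (Fin 2) (Adl K)) 1 j := by
    intro i j
    rw [hginv]
    exact conj_unip_sub_one729 _ _ hBA (-x) i j
  have hone_inf : ∀ (w : InfinitePlace K) (i j : Fin 2),
      ((1 : Matrix (Fin 2) (Fin 2) (Adl K)) i j).1 w
        = (1 : Matrix (Fin 2) (Fin 2) w.Completion) i j := by
    intro w i j
    by_cases h : i = j
    · subst h
      simp only [Matrix.one_apply_eq]
      rfl
    · simp only [Matrix.one_apply_ne h]
      rfl
  have hone_fin : ∀ (v : HeightOneSpectrum (𝓞 K)) (i j : Fin 2),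
      ((1 : Matrix (Fin 2) (Fin 2) (Adl K)) i j).2 v
        = (1 : Matrix (Fin 2) (Fin 2) (v.adicCompletion K)) i j := by
    intro v i j
    by_cases h : i = j
    · subst h
      simp only [Matrix.one_apply_eq]
      rfl
    · simp only [Matrix.one_apply_ne h]
      rfl
  have hxinf : ∀ w : InfinitePlace K, x.1 w = 0 := fun w => rfl
  have hxfin : ∀ v : HeightOneSpectrum (𝓞 K), x.2 v
      = (m₃ : v.adicCompletion K) * (((m₂ : v.adicCompletion K) * (m₁ : v.adicCompletion K))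
        * (m₂ : v.adicCompletion K)) * u.2 v := by
    intro v
    show ((((m₃ * (m₂ * m₁ * m₂) : ℕ) : Adl K) * u).2) v = _
    rw [natCast_mul_snd729]
    push_cast
    ring
  refine ⟨fun w i j => ?_, fun v i j => ⟨?_, ?_⟩⟩
  · -- infinite places
    have h1 := congrArg (fun a : Adl K => a.1 w) (hentry i j)
    have h2 : (((ω⁻¹ : G K) : Matrix (Fin 2) (Fin 2) (Adl K)) i 0 * x
        * (ω : Matrix (Fin 2) (Fin 2) (Adl K)) 1 j).1 w = 0 := by
      rw [← pInfC729_apply, map_mul, map_mul, pInfC729_apply w x, hxinf w, mul_zero, zero_mul]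
    have h3 : (((ω⁻¹ * n * ω : G K) : Matrix (Fin 2) (Fin 2) (Adl K)) i j
        - (1 : Matrix _ _ _) i j).1 w
        = (((ω⁻¹ * n * ω : G K) : Matrix (Fin 2) (Fin 2) (Adl K)) i j).1 w
          - ((1 : Matrix (Fin 2) (Fin 2) (Adl K)) i j).1 w := by
      rw [← pInfC729_apply, map_sub, pInfC729_apply, pInfC729_apply]
    have h4 : (((ω⁻¹ * n * ω : G K) : Matrix (Fin 2) (Fin 2) (Adl K)) i j).1 w
        = ((1 : Matrix (Fin 2) (Fin 2) (Adl K)) i j).1 w := by
      have : (((ω⁻¹ * n * ω : G K) : Matrix (Fin 2) (Fin 2) (Adl K)) i j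
          - (1 : Matrix _ _ _) i j).1 w = 0 := h1.trans h2
      rw [h3] at this
      exact sub_eq_zero.mp this
    rw [h4, hone_inf]
  · -- finite places, the element
    have h1 := congrArg (fun a : Adl K => a.2 v) (hentry i j)
    have h3 : (finComp v (ω⁻¹ * n * ω) - 1) i j
        = (((ω⁻¹ * n * ω : G K) : Matrix (Fin 2) (Fin 2) (Adl K)) i j
          - (1 : Matrix _ _ _) i j).2 v := by
      rw [← pFinC729_apply, map_sub, pFinC729_apply, pFinC729_apply, hone_fin]
      rfl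
    rw [h3]
    have h5 : (((ω⁻¹ * n * ω : G K) : Matrix (Fin 2) (Fin 2) (Adl K)) i j
        - (1 : Matrix _ _ _) i j).2 v
        = (((ω⁻¹ : G K) : Matrix (Fin 2) (Fin 2) (Adl K)) i 0 * x
          * (ω : Matrix (Fin 2) (Fin 2) (Adl K)) 1 j).2 v := h1
    rw [h5, ← pFinC729_apply, map_mul, map_mul, pFinC729_apply, pFinC729_apply, pFinC729_apply,
      hxfin v]
    have h6 : (((ω⁻¹ : G K) : Matrix (Fin 2) (Fin 2) (Adl K)) i 0).2 v *
        ((m₃ : v.adicCompletion K) * (((m₂ : v.adicCompletion K) * (m₁ : v.adicCompletion K))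
          * (m₂ : v.adicCompletion K)) * u.2 v) *
        ((ω : Matrix (Fin 2) (Fin 2) (Adl K)) 1 j).2 v
        = (m₃ : v.adicCompletion K) *
          (((m₂ : v.adicCompletion K) *
              (((ω⁻¹ : G K) : Matrix (Fin 2) (Fin 2) (Adl K)) i 0).2 v) *
            ((m₁ : v.adicCompletion K) * u.2 v) *
            ((m₂ : v.adicCompletion K) * ((ω : Matrix (Fin 2) (Fin 2) (Adl K)) 1 j).2 v)) := by
      ring
    rw [h6]
    refine natCast_mul_mem_idealClosure729 𝔫 v m₃ hm₃mem _ ?_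
    exact mul_mem (mul_mem ((hΩ₂ ω hω i 0).2 v) (hC₁ hu v)) ((hΩ₂ ω hω 1 j).1 v)
  · -- finite places, the inverse
    have h1 := congrArg (fun a : Adl K => a.2 v) (hentry' i j)
    have h3 : (finComp v (ω⁻¹ * n * ω)⁻¹ - 1) i j
        = ((((ω⁻¹ * n * ω)⁻¹ : G K) : Matrix (Fin 2) (Fin 2) (Adl K)) i j
          - (1 : Matrix _ _ _) i j).2 v := by
      rw [← pFinC729_apply, map_sub, pFinC729_apply, pFinC729_apply, hone_fin]
      rfl
    rw [h3]
    have h5 : ((((ω⁻¹ * n * ω)⁻¹ : G K) : Matrix (Fin 2) (Fin 2) (Adl K)) i j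
        - (1 : Matrix _ _ _) i j).2 v
        = (((ω⁻¹ : G K) : Matrix (Fin 2) (Fin 2) (Adl K)) i 0 * (-x)
          * (ω : Matrix (Fin 2) (Fin 2) (Adl K)) 1 j).2 v := h1
    rw [h5, ← pFinC729_apply, map_mul, map_mul, map_neg, pFinC729_apply, pFinC729_apply,
      pFinC729_apply, hxfin v]
    have h6 : (((ω⁻¹ : G K) : Matrix (Fin 2) (Fin 2) (Adl K)) i 0).2 v *
        -((m₃ : v.adicCompletion K) * (((m₂ : v.adicCompletion K) * (m₁ : v.adicCompletion K))
          * (m₂ : v.adicCompletion K)) * u.2 v) *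
        ((ω : Matrix (Fin 2) (Fin 2) (Adl K)) 1 j).2 v
        = (m₃ : v.adicCompletion K) *
          (-(((m₂ : v.adicCompletion K) *
              (((ω⁻¹ : G K) : Matrix (Fin 2) (Fin 2) (Adl K)) i 0).2 v) *
            ((m₁ : v.adicCompletion K) * u.2 v) *
            ((m₂ : v.adicCompletion K) * ((ω : Matrix (Fin 2) (Fin 2) (Adl K)) 1 j).2 v))) := by
      ring
    rw [h6]
    refine natCast_mul_mem_idealClosure729 𝔫 v m₃ hm₃mem _ ?_
    exact neg_mem (mul_mem (mul_mem ((hΩ₂ ω hω i 0).2 v) (hC₁ hu v)) ((hΩ₂ ω hω 1 j).1 v))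

end Fermat.Agent.LT.T2.H729

end
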