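import Mathlib
import Fermat.Agent.LT.H556.A0
import Fermat.Agent.LT.T1.Spec
import Fermat.Agent.LT.T2.Spec
import Fermat.Agent.LT.T2.H386.GPSSpec
import Fermat.Agent.LT.T2.H511.FDSpec
import Fermat.Agent.LT.T2.H729.Contr

/-!
# Row LT, tower T2, leaf T2.03a, sub-leaf T2.03a.1 (helper729): the leaf, VERBATIM

OFF-MAIN.  `leafContr729 K : H511.LeafContr K` (= `T1.T1Out K → ∀ 𝔫 ≠ ⊥, H511.ContrC K 𝔫`) and
`contrC729 : H511.ContrC K 𝔫` (without `T1.T1Out`), against `LT/T2/H511/FDSpec.lean` (helper511,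
sha256 ad79b18a) and `LT/T2/H386/GPSSpec.lean` (helper386, sha256 fb5aa9e8).  The proof is
`contr729` of `Contr.lean`, which depends on Mathlib and `A0` only.
-/

set_option autoImplicit false

open IsDedekindDomain NumberField
open Fermat.Agent.LT.H556.A0

namespace Fermat.Agent.LT.T2.H729

variable (K : Type) [Field K] [NumberField K]

/-- **T2.03a.1 CONTR**, without hypotheses on the tower T1. -/
theorem contrC729 (𝔫 : Ideal (𝓞 K)) (h𝔫 : 𝔫 ≠ ⊥) : Fermat.Agent.LT.T2.H511.ContrC K 𝔫 := by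
  intro Ω hΩ C hC
  obtain ⟨m, hm, h⟩ := contr729 𝔫 h𝔫 Ω hΩ C hC
  exact ⟨m, hm, fun ω hω u hu =>
    h ω hω u hu (Fermat.Agent.LT.T2.H386.unip386
      (Fermat.Agent.LT.T2.H511.finPart511 ((m : Adl K) * u))) rfl rfl⟩

/-- **T2.03a.1, the leaf VERBATIM.** -/
theorem leafContr729 : Fermat.Agent.LT.T2.H511.LeafContr K :=
  fun _ 𝔫 h𝔫 => contrC729 K 𝔫 h𝔫

end Fermat.Agent.LT.T2.H729
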