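import Mathlib

/-!
# Row LT, tower T2, leaf T2.22d, sub-leaf T2.22d.2 `ThetaMeasC175` (helper729): core

OFF-MAIN.  Mathlib only.  Nothing is assumed.

`measurePreserving_antiInvolution729` : in a locally compact second countable group, a Haar
measure which is also right invariant is preserved by every continuous involutive
anti-automorphism `θ` (`θ (g h) = θ h θ g`, `θ ∘ θ = id`).

Proof.  `μ.map θ` is finite on compact sets and LEFT invariant (right invariance of `μ`), hence
`μ.map θ = c • μ` (uniqueness of Haar measure); `θ ∘ θ = id` gives `c² = 1`, so `c = 1`.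
-/

set_option autoImplicit false

open MeasureTheory MeasureTheory.Measure
open scoped NNReal ENNReal

namespace Fermat.Agent.LT.T2.H729

/-- A continuous involutive anti-automorphism of a unimodular group preserves Haar measure. -/
theorem measurePreserving_antiInvolution729 {G : Type*} [Group G] [TopologicalSpace G]
    [IsTopologicalGroup G] [LocallyCompactSpace G] [SecondCountableTopology G]
    [MeasurableSpace G] [BorelSpace G] (μ : Measure G) [μ.IsHaarMeasure]
    [μ.IsMulRightInvariant] (θ : G → G) (hc : Continuous θ) (hinv : ∀ g, θ (θ g) = g)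
    (hmul : ∀ g h, θ (g * h) = θ h * θ g) : MeasurePreserving θ μ μ := by
  let e : G ≃ₜ G :=
    { toFun := θ
      invFun := θ
      left_inv := hinv
      right_inv := hinv
      continuous_toFun := hc
      continuous_invFun := hc }
  have hmeas : Measurable θ := hc.measurable
  have : IsFiniteMeasureOnCompacts (μ.map θ) := IsFiniteMeasureOnCompacts.map μ e
  have : (μ.map θ).IsMulLeftInvariant := by
    constructor
    intro g
    rw [Measure.map_map (measurable_const_mul g) hmeas]
    have h1 : (fun x => g * x) ∘ θ = θ ∘ (fun x => x * θ g) := by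
      funext x
      simp only [Function.comp_apply, hmul, hinv]
    rw [h1, ← Measure.map_map hmeas (measurable_mul_const _), map_mul_right_eq_self]
  set c : ℝ≥0 := haarScalarFactor (μ.map θ) μ with hcdef
  have h1 : μ.map θ = c • μ := isMulLeftInvariant_eq_smul _ _
  have h2 : (μ.map θ).map θ = μ := by
    rw [Measure.map_map hmeas hmeas]
    have : θ ∘ θ = id := funext hinv
    rw [this, Measure.map_id]
  have h3 : (c * c) • μ = μ := by
    have h4 : (μ.map θ).map θ = c • (c • μ) := by
      conv_lhs => rw [h1]
      rw [Measure.map_smul, h1]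
    rw [h2] at h4
    rw [mul_smul]
    exact h4.symm
  obtain ⟨C, hC, hC1⟩ := exists_compact_mem_nhds (1 : G)
  have hpos : 0 < μ C := measure_pos_of_mem_nhds μ hC1
  have hfin : μ C < ⊤ := hC.measure_lt_top
  have h5 : ((c * c : ℝ≥0) : ℝ≥0∞) * μ C = 1 * μ C := by
    have := congrArg (fun ν : Measure G => ν C) h3
    simpa using this
  have h6 : ((c * c : ℝ≥0) : ℝ≥0∞) = 1 := (ENNReal.mul_left_inj hpos.ne' hfin.ne).mp h5
  have h7 : c * c = 1 := by exact_mod_cast h6
  have h8 : c = 1 := by
    have h9 : (c : ℝ) * c = 1 := by exact_mod_cast h7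
    have hc0 : 0 ≤ (c : ℝ) := c.2
    have h10 : (c : ℝ) = 1 := by nlinarith
    exact_mod_cast h10
  exact ⟨hmeas, by rw [h1, h8, one_smul]⟩

end Fermat.Agent.LT.T2.H729
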