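import Mathlib
import Fermat.Agent.LT.H556.A0
import Fermat.Agent.LT.T1.Spec
import Fermat.Agent.LT.T2.Spec
import Fermat.Agent.LT.T2.H175.TauSpec
import Fermat.Agent.LT.T2.H729.ThetaMeas

/-!
# Row LT, tower T2, leaf T2.22d, sub-leaf T2.22d.2 (helper729): the leaf, VERBATIM

OFF-MAIN.  `thetaMeasC729 K : H175.ThetaMeasC175 K` against `LT/T2/H175/TauSpec.lean`
(helper175, sha256 da27a6e8).  The proof is `measurePreserving_antiInvolution729` of
`ThetaMeas.lean` (Mathlib only) applied to `θ = thetaG175`, which is continuous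
(`continuous_thetaG729`), involutive and anti-multiplicative (`TauSpec`).  No use of `adjG724`.
-/

set_option autoImplicit false

open IsDedekindDomain NumberField MeasureTheory
open Fermat.Agent.LT.H556.A0

namespace Fermat.Agent.LT.T2.H729

attribute [local instance] Fermat.Agent.LT.T2.borelG

variable (K : Type) [Field K] [NumberField K]

theorem continuous_thetaM729 {X : Type*} [TopologicalSpace X]
    {f : X → Matrix (Fin 2) (Fin 2) (Adl K)} (hf : Continuous f) :
    Continuous fun x => Fermat.Agent.LT.T2.H175.thetaM175 (f x) := by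
  refine continuous_matrix (fun i j => ?_)
  fin_cases i <;> fin_cases j
  · exact hf.matrix_elem 0 0
  · exact (hf.matrix_elem 1 0).neg
  · exact (hf.matrix_elem 0 1).neg
  · exact hf.matrix_elem 1 1

/-- `θ` is continuous on `GL₂(𝔸_K)`. -/
theorem continuous_thetaG729 :
    Continuous (Fermat.Agent.LT.T2.H175.thetaG175 (K := K)) := by
  have hval : Continuous fun g : G K => (g : Matrix (Fin 2) (Fin 2) (Adl K)) :=
    Units.continuous_val
  have hinv : Continuous fun g : G K => ((g⁻¹ : G K) : Matrix (Fin 2) (Fin 2) (Adl K)) :=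
    Units.continuous_coe_inv
  rw [Units.continuous_iff]
  exact ⟨continuous_thetaM729 K hval, continuous_thetaM729 K hinv⟩

/-- **T2.22d.2 MEASURE, VERBATIM.** -/
theorem thetaMeasC729 : Fermat.Agent.LT.T2.H175.ThetaMeasC175 K := by
  intro hLC hU μ hμ
  obtain ⟨-, hlc, _ht2, hsc⟩ := hLC
  have := hlc
  have := hsc
  have : BorelSpace (G K) := ⟨rfl⟩
  have := hμ
  have : μ.IsMulRightInvariant := hU μ hμ
  exact measurePreserving_antiInvolution729 μ _ (continuous_thetaG729 K)
    Fermat.Agent.LT.T2.H175.thetaG175_thetaG175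
    Fermat.Agent.LT.T2.H175.thetaG175_mul

end Fermat.Agent.LT.T2.H729
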