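import Mathlib
import Fermat.Agent.LT.H556.A0
import Fermat.Agent.LT.T3.Spec

/-!
# Row LT, tower T2, station T2.10 (SMO_AA), sub-leaf T2.10.06 `CondExistsC` (helper729): core

OFF-MAIN.  Mathlib + `LT/H556/A0.lean` + `LT/T3/Spec.lean` (vocabulary only), byte-identical
copies.  Nothing is assumed.

`condExists729` : a continuous additive character `ψ` of `𝔸_K` which is non-degenerate has a
CONDUCTOR EXPONENT at every finite place `v`: there is `d : ℤ` such that `ψ` is trivial on the
adeles supported at `v` with `|x_v|_v ≤ exp d` and non-trivial on some adele supported at `v` with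
`|x_v|_v = exp (d + 1)`.

Proof.  (1) The inclusion `𝒪_v → 𝔸_K` is continuous (`RestrictedProduct.isEmbedding_structureMap`),
so `ψ` maps a ball `{|x_v| ≤ exp d₀}` into `{z : ‖z - 1‖ < 1/2}`; the ball is a group and the
circle has no small subgroups (`eq_one_of_pow_two_pow_near729`), so `ψ` is trivial on the ball.
(2) `ψ` is not trivial on the adeles supported at `v` (non-degeneracy applied to the idempotent
of `v`).  (3) The set of admissible exponents is non-empty and bounded above; its maximum is the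
conductor exponent (the value group is `exp ℤ`).
-/

set_option autoImplicit false

open IsDedekindDomain NumberField
open Fermat.Agent.LT.H556.A0

noncomputable section

namespace Fermat.Agent.LT.T2.H729

set_option linter.unusedSectionVars false

/-! ## The circle has no small subgroups -/

/-- A complex number all of whose `2^k`-th powers are at distance `< 1/2` from `1` is `1`. -/
theorem eq_one_of_pow_two_pow_near729 (z : ℂ) (h : ∀ k : ℕ, ‖z ^ (2 ^ k) - 1‖ < 1 / 2) :
    z = 1 := by
  have hstep : ∀ k : ℕ, (3 / 2 : ℝ) * ‖z ^ (2 ^ k) - 1‖ ≤ ‖z ^ (2 ^ (k + 1)) - 1‖ := by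
    intro k
    set w := z ^ (2 ^ k) with hw
    have hw2 : z ^ (2 ^ (k + 1)) - 1 = (w - 1) * (w + 1) := by
      rw [hw, pow_succ, pow_mul]
      ring
    rw [hw2, norm_mul]
    have h2 : (2 : ℝ) ≤ ‖w + 1‖ + ‖w - 1‖ := by
      have h3 : ‖(w + 1) - (w - 1)‖ ≤ ‖w + 1‖ + ‖w - 1‖ := norm_sub_le _ _
      have h4 : (w + 1) - (w - 1) = (2 : ℂ) := by ring
      rw [h4] at h3
      simpa using h3
    have h5 : ‖w - 1‖ < 1 / 2 := h k
    have h6 : (3 / 2 : ℝ) ≤ ‖w + 1‖ := by linarith
    have h7 : 0 ≤ ‖w - 1‖ := norm_nonneg _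
    nlinarith
  have hpow : ∀ k : ℕ, (3 / 2 : ℝ) ^ k * ‖z - 1‖ ≤ ‖z ^ (2 ^ k) - 1‖ := by
    intro k
    induction k with
    | zero => simp
    | succ k ih =>
      calc (3 / 2 : ℝ) ^ (k + 1) * ‖z - 1‖ = (3 / 2) * ((3 / 2) ^ k * ‖z - 1‖) := by ring
        _ ≤ (3 / 2) * ‖z ^ (2 ^ k) - 1‖ := by
          apply mul_le_mul_of_nonneg_left ih
          norm_num
        _ ≤ ‖z ^ (2 ^ (k + 1)) - 1‖ := hstep k
  by_contra hz
  have hpos : 0 < ‖z - 1‖ := norm_pos_iff.mpr (sub_ne_zero.mpr hz)
  obtain ⟨n, hn⟩ := pow_unbounded_of_one_lt (1 / (2 * ‖z - 1‖)) (by norm_num : (1 : ℝ) < 3 / 2)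
  have h1 : 1 / 2 < (3 / 2 : ℝ) ^ n * ‖z - 1‖ := by
    have := mul_lt_mul_of_pos_right hn hpos
    have h2 : 1 / (2 * ‖z - 1‖) * ‖z - 1‖ = 1 / 2 := by
      field_simp
    rwa [h2] at this
  have := hpow n
  have := h n
  linarith

variable {K : Type} [Field K] [NumberField K]

/-! ## Adeles supported at a finite place -/

theorem adl_ext_cond729 {x y : Adl K} (hinf : x.1 = y.1)
    (hfin : ∀ v : HeightOneSpectrum (𝓞 K), x.2 v = y.2 v) : x = y :=
  Prod.ext hinf (FiniteAdeleRing.ext K hfin)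

open Classical in
/-- The inclusion of `𝒪_v` in the adeles, at the finite place `v`. -/
def locInt729 (v : HeightOneSpectrum (𝓞 K)) (a : v.adicCompletionIntegers K) : Adl K :=
  ((0 : InfiniteAdeleRing K),
    RestrictedProduct.structureMap (fun v : HeightOneSpectrum (𝓞 K) => v.adicCompletion K)
      (fun v : HeightOneSpectrum (𝓞 K) => (v.adicCompletionIntegers K : Set (v.adicCompletion K)))
      Filter.cofinite (Pi.single v a))

theorem locInt729_fst (v : HeightOneSpectrum (𝓞 K)) (a : v.adicCompletionIntegers K) :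
    (locInt729 v a).1 = 0 := rfl

theorem locInt729_snd_self (v : HeightOneSpectrum (𝓞 K)) (a : v.adicCompletionIntegers K) :
    (locInt729 v a).2 v = (a : v.adicCompletion K) := by
  classical
  show ((Pi.single v a : ∀ v : HeightOneSpectrum (𝓞 K), v.adicCompletionIntegers K) v :
    v.adicCompletion K) = a
  rw [Pi.single_eq_same]

theorem locInt729_snd_ne (v v' : HeightOneSpectrum (𝓞 K)) (h : v' ≠ v)
    (a : v.adicCompletionIntegers K) : (locInt729 v a).2 v' = 0 := by
  classical
  show ((Pi.single v a : ∀ v : HeightOneSpectrum (𝓞 K), v.adicCompletionIntegers K) v' :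
    v'.adicCompletion K) = 0
  rw [Pi.single_eq_of_ne h]
  rfl

theorem continuous_locInt729 (v : HeightOneSpectrum (𝓞 K)) :
    Continuous (locInt729 (K := K) v) := by
  classical
  unfold locInt729
  refine Continuous.prodMk continuous_const ?_
  refine RestrictedProduct.isEmbedding_structureMap.continuous.comp ?_
  refine continuous_pi (fun i => ?_)
  by_cases h : i = v
  · subst h
    have : (fun a : i.adicCompletionIntegers K =>
        (Pi.single i a : ∀ v : HeightOneSpectrum (𝓞 K), v.adicCompletionIntegers K) i)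
        = fun a => a := by
      funext a
      rw [Pi.single_eq_same]
    exact this ▸ continuous_id
  · have : (fun a : v.adicCompletionIntegers K =>
        (Pi.single v a : ∀ v : HeightOneSpectrum (𝓞 K), v.adicCompletionIntegers K) i)
        = fun _ => 0 := by
      funext a
      rw [Pi.single_eq_of_ne h]
    exact this ▸ continuous_const

/-- An adele supported at `v` with integral component is in the image of `locInt729`. -/
theorem eq_locInt729 (v : HeightOneSpectrum (𝓞 K)) (x : Adl K) (hx : T3.IsLocAdeleAt K v x)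
    (hi : x.2 v ∈ v.adicCompletionIntegers K) : x = locInt729 v ⟨x.2 v, hi⟩ := by
  refine adl_ext_cond729 ?_ (fun v' => ?_)
  · rw [locInt729_fst]
    exact hx.1
  · by_cases h : v' = v
    · subst h
      rw [locInt729_snd_self]
    · rw [locInt729_snd_ne v v' h]
      exact hx.2 v' h

theorem locInt729_zero (v : HeightOneSpectrum (𝓞 K)) : locInt729 (K := K) v 0 = 0 := by
  refine adl_ext_cond729 rfl (fun v' => ?_)
  by_cases h : v' = v
  · subst h
    rw [locInt729_snd_self]
    rfl
  · rw [locInt729_snd_ne v v' h]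
    rfl

/-! ## The conductor exponent -/

/-- `ψ` is trivial on a small ball at `v`. -/
theorem exists_trivial_ball729 (ψ : AddChar (Adl K) Circle) (hc : Continuous ψ)
    (v : HeightOneSpectrum (𝓞 K)) :
    ∃ d : ℤ, ∀ x : Adl K, T3.IsLocAdeleAt K v x → Valued.v (x.2 v) ≤ WithZero.exp d →
      ψ x = 1 := by
  -- a neighbourhood of `0` in `𝒪_v` is mapped near `1`
  set U : Set Circle := {z | ‖(z : ℂ) - 1‖ < 1 / 2} with hU
  have hUo : IsOpen U := by
    have hcoe : Continuous fun z : Circle => (z : ℂ) := continuous_subtype_val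
    have : Continuous fun z : Circle => ‖(z : ℂ) - 1‖ :=
      (hcoe.sub continuous_const).norm
    exact isOpen_lt this continuous_const
  have hcomp : Continuous fun a : v.adicCompletionIntegers K => ψ (locInt729 v a) :=
    hc.comp (continuous_locInt729 v)
  have h0 : (fun a : v.adicCompletionIntegers K => ψ (locInt729 v a)) 0 ∈ U := by
    show ‖((ψ (locInt729 v 0) : Circle) : ℂ) - 1‖ < 1 / 2
    rw [locInt729_zero, AddChar.map_zero_eq_one]
    simp
  have hnhds : (fun a : v.adicCompletionIntegers K => ψ (locInt729 v a)) ⁻¹' U ∈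
      nhds (0 : v.adicCompletionIntegers K) :=
    hcomp.continuousAt.preimage_mem_nhds (hUo.mem_nhds h0)
  rw [mem_nhds_subtype] at hnhds
  obtain ⟨t, ht, hts⟩ := hnhds
  have ht' : t ∈ nhds (0 : v.adicCompletion K) := ht
  rw [Valued.mem_nhds_zero] at ht'
  obtain ⟨γ₀, hγ₀⟩ := ht'
  set γ : WithZero (Multiplicative ℤ) := MonoidWithZeroHom.ValueGroup₀.embedding γ₀.1 with hγdef
  have hγ : ∀ a : v.adicCompletion K, Valued.v a < γ → a ∈ t := fun a ha =>
    hγ₀ ((Valuation.restrict_lt_iff_lt_embedding _).mpr ha)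
  have hγ0 : γ ≠ 0 := by
    rw [hγdef]
    exact (map_ne_zero_iff _ MonoidWithZeroHom.ValueGroup₀.embedding_injective).mpr γ₀.ne_zero
  set m : ℤ := WithZero.log γ with hm
  have hγm : WithZero.exp m = γ := WithZero.exp_log hγ0
  refine ⟨min (m - 1) 0, ?_⟩
  -- every adele in the ball is mapped into `U`
  have hball : ∀ x : Adl K, T3.IsLocAdeleAt K v x →
      Valued.v (x.2 v) ≤ WithZero.exp (min (m - 1) 0) → ψ x ∈ U := by
    intro x hx hv
    have hi : x.2 v ∈ v.adicCompletionIntegers K := by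
      rw [HeightOneSpectrum.mem_adicCompletionIntegers]
      refine hv.trans ?_
      rw [← WithZero.exp_zero]
      exact WithZero.exp_le_exp.mpr (min_le_right _ _)
    have hlt : Valued.v (x.2 v) < γ := by
      rw [← hγm]
      refine lt_of_le_of_lt hv ?_
      apply WithZero.exp_lt_exp.mpr
      have := min_le_left (m - 1) 0
      omega
    have hmem : (⟨x.2 v, hi⟩ : v.adicCompletionIntegers K) ∈
        (Subtype.val : v.adicCompletionIntegers K → v.adicCompletion K) ⁻¹' t := hγ _ hlt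
    have := hts hmem
    rw [Set.mem_preimage, ← eq_locInt729 v x hx hi] at this
    exact this
  -- the ball is stable under doubling
  have hdouble : ∀ (k : ℕ) (x : Adl K), T3.IsLocAdeleAt K v x →
      Valued.v (x.2 v) ≤ WithZero.exp (min (m - 1) 0) →
      T3.IsLocAdeleAt K v ((2 ^ k) • x) ∧
        Valued.v (((2 ^ k) • x).2 v) ≤ WithZero.exp (min (m - 1) 0) := by
    intro k
    induction k with
    | zero =>
      intro x hx hv
      simpa using ⟨hx, hv⟩
    | succ k ih =>
      intro x hx hv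
      obtain ⟨h1, h2⟩ := ih x hx hv
      have he : (2 ^ (k + 1)) • x = (2 ^ k) • x + (2 ^ k) • x := by
        rw [pow_succ, mul_nsmul, two_nsmul]
      rw [he]
      refine ⟨⟨?_, fun v' hv' => ?_⟩, ?_⟩
      · show ((2 ^ k) • x).1 + ((2 ^ k) • x).1 = 0
        rw [h1.1, add_zero]
      · show ((2 ^ k) • x + (2 ^ k) • x).2 v' = 0
        have : ((2 ^ k) • x + (2 ^ k) • x).2 v' = ((2 ^ k) • x).2 v' + ((2 ^ k) • x).2 v' := rfl
        rw [this, h1.2 v' hv', add_zero]
      · have : ((2 ^ k) • x + (2 ^ k) • x).2 v = ((2 ^ k) • x).2 v + ((2 ^ k) • x).2 v := rfl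
        rw [this]
        exact (Valued.v.map_add _ _).trans (max_le h2 h2)
  intro x hx hv
  have hz : ((ψ x : Circle) : ℂ) = 1 := by
    apply eq_one_of_pow_two_pow_near729
    intro k
    obtain ⟨h1, h2⟩ := hdouble k x hx hv
    have h3 := hball _ h1 h2
    have h4 : ψ ((2 ^ k) • x) = ψ x ^ (2 ^ k) := AddChar.map_nsmul_eq_pow ψ (2 ^ k) x
    rw [h4] at h3
    have h5 : ‖((ψ x ^ (2 ^ k) : Circle) : ℂ) - 1‖ < 1 / 2 := h3
    rwa [Circle.coe_pow] at h5
  exact Circle.ext (by simpa using hz)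

/-- `ψ` is not trivial on the adeles supported at `v`. -/
theorem exists_nontrivial_loc729 (ψ : AddChar (Adl K) Circle)
    (hnd : ∀ x : Adl K, (∀ y : Adl K, ψ (x * y) = 1) → x = 0)
    (v : HeightOneSpectrum (𝓞 K)) :
    ∃ x : Adl K, T3.IsLocAdeleAt K v x ∧ ψ x ≠ 1 := by
  set e : Adl K := locInt729 v 1 with he
  have he0 : e ≠ 0 := by
    intro h
    have h1 : e.2 v = (0 : Adl K).2 v := by rw [h]
    rw [he, locInt729_snd_self] at h1
    have h2 : ((1 : v.adicCompletionIntegers K) : v.adicCompletion K) = 1 := rfl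
    rw [h2] at h1
    exact one_ne_zero h1
  have hex : ∃ y : Adl K, ψ (e * y) ≠ 1 := by
    by_contra hcon
    rw [not_exists] at hcon
    exact he0 (hnd e (fun y => not_not.mp (hcon y)))
  obtain ⟨y, hy⟩ := hex
  refine ⟨e * y, ⟨?_, fun v' hv' => ?_⟩, hy⟩
  · show e.1 * y.1 = 0
    rw [he, locInt729_fst, zero_mul]
  · show e.2 v' * y.2 v' = 0
    rw [he, locInt729_snd_ne v v' hv', zero_mul]

/-- **THE CONDUCTOR EXPONENT EXISTS** at every finite place, for a continuous non-degenerate
additive character of the adeles. -/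
theorem condExists729 (ψ : AddChar (Adl K) Circle) (hc : Continuous ψ)
    (hnd : ∀ x : Adl K, (∀ y : Adl K, ψ (x * y) = 1) → x = 0)
    (v : HeightOneSpectrum (𝓞 K)) :
    ∃ d : ℤ,
      (∀ x : Adl K, T3.IsLocAdeleAt K v x → Valued.v (x.2 v) ≤ WithZero.exp d → ψ x = 1) ∧
      ∃ x : Adl K, T3.IsLocAdeleAt K v x ∧ Valued.v (x.2 v) = WithZero.exp (d + 1) ∧
        ψ x ≠ 1 := by
  classical
  obtain ⟨d₀, hd₀⟩ := exists_trivial_ball729 ψ hc v
  obtain ⟨x₁, hx₁, hψ₁⟩ := exists_nontrivial_loc729 ψ hnd v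
  -- the component of `x₁` at `v` is not zero
  have hx₁v : x₁.2 v ≠ 0 := by
    intro h0
    apply hψ₁
    have : x₁ = 0 := by
      refine adl_ext_cond729 hx₁.1 (fun v' => ?_)
      by_cases h : v' = v
      · subst h
        rw [h0]
        rfl
      · rw [hx₁.2 v' h]
        rfl
    rw [this, AddChar.map_zero_eq_one]
  have hval₁ : Valued.v (x₁.2 v) ≠ 0 := (Valuation.ne_zero_iff _).mpr hx₁v
  set m₁ : ℤ := WithZero.log (Valued.v (x₁.2 v)) with hm₁
  have hexp₁ : WithZero.exp m₁ = Valued.v (x₁.2 v) := WithZero.exp_log hval₁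
  set P : ℤ → Prop := fun d =>
    ∀ x : Adl K, T3.IsLocAdeleAt K v x → Valued.v (x.2 v) ≤ WithZero.exp d → ψ x = 1 with hP
  have hbdd : ∃ b : ℤ, ∀ z : ℤ, P z → z ≤ b := by
    refine ⟨m₁, fun z hz => ?_⟩
    by_contra hlt
    rw [not_le] at hlt
    apply hψ₁
    apply hz x₁ hx₁
    rw [← hexp₁]
    exact WithZero.exp_le_exp.mpr hlt.le
  obtain ⟨d, hdP, hdmax⟩ := Int.exists_greatest_of_bdd hbdd ⟨d₀, hd₀⟩
  refine ⟨d, hdP, ?_⟩
  have hnot : ¬ P (d + 1) := fun h => by
    have := hdmax (d + 1) h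
    omega
  rw [hP] at hnot
  simp only [not_forall] at hnot
  obtain ⟨x, hx, hv, hψ⟩ := hnot
  refine ⟨x, hx, ?_, hψ⟩
  have hgt : ¬ Valued.v (x.2 v) ≤ WithZero.exp d := fun h => hψ (hdP x hx h)
  rw [not_le] at hgt
  have hne : Valued.v (x.2 v) ≠ 0 := fun h => by
    rw [h] at hgt
    exact absurd hgt (not_lt.mpr zero_le)
  set m : ℤ := WithZero.log (Valued.v (x.2 v)) with hm
  have hexp : WithZero.exp m = Valued.v (x.2 v) := WithZero.exp_log hne
  rw [← hexp] at hgt hv ⊢
  have h1 : d < m := WithZero.exp_lt_exp.mp hgt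
  have h2 : m ≤ d + 1 := WithZero.exp_le_exp.mp hv
  have : m = d + 1 := by omega
  rw [this]

end Fermat.Agent.LT.T2.H729

end
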