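import Mathlib
import Fermat.Agent.LT.H556.A0
import Fermat.Agent.LT.T1.Spec
import Fermat.Agent.LT.T3.Spec
import Fermat.Agent.LT.T2.H941.SmoSpec
import Fermat.Agent.LT.T2.H729.CondExists

/-!
# Row LT, tower T2, station T2.10 (SMO_AA), sub-leaf T2.10.06 (helper729): the leaf, VERBATIM

OFF-MAIN.  `leaf06_729 K : H941.Leaf06 K` (= `T1.T1Out K → H941.CondExistsC K`) and
`condExistsC729 K : H941.CondExistsC K` (unconditional), against `LT/T2/H941/SmoSpec.lean`
(helper941, sha256 41255efa).  The proof is `condExists729` of `CondExists.lean`, which depends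
on Mathlib, `A0` and `T3/Spec` only.
-/

set_option autoImplicit false

open IsDedekindDomain NumberField
open Fermat.Agent.LT.H556.A0

namespace Fermat.Agent.LT.T2.H729

variable (K : Type) [Field K] [NumberField K]

/-- **T2.10.06, unconditional.** -/
theorem condExistsC729 : Fermat.Agent.LT.T2.H941.CondExistsC K :=
  fun ψ hψ hnd v => condExists729 ψ hψ.cont hnd v

/-- **T2.10.06, the leaf VERBATIM.** -/
theorem leaf06_729 : Fermat.Agent.LT.T2.H941.Leaf06 K :=
  fun _ => condExistsC729 K

end Fermat.Agent.LT.T2.H729
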